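/-
Programme DS (S48), brick E1 (helper2): the mean-square bound for the `q`-coefficients of a
holomorphic, `1`-periodic function `F` on the upper half plane which is bounded at `i∞` and
satisfies `‖F τ‖ ^ 2 * im τ ≤ C`:

  `∑_{n < M} ‖a_n‖ ^ 2 * exp (-4 π n t) ≤ C / t`   (Parseval on the horizontal line of height `t`),
  `∑_{n ≤ X} ‖a_n‖ ^ 2 ≤ exp (4 π) * C * X`.

Instance: cusp forms of weight one on `Γ₁(N)` (via Mathlib's `CuspFormClass.exists_bound`).
-/
import Mathlib

set_option autoImplicit false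

open Complex MeasureTheory Function Set
open UpperHalfPlane hiding I
open scoped Real Manifold

namespace Fermat.Agent.DS.Rankin.MeanSquare

local notation "𝕢" => Function.Periodic.qParam

/-- The restriction of `F` to the horizontal line of height `t`. -/
noncomputable def slice (F : ℍ → ℂ) (t : ℝ) (u : ℝ) : ℂ := F (ofComplex ((u : ℂ) + t * I))

theorem slice_eq (F : ℍ → ℂ) {t : ℝ} (ht : 0 < t) (u : ℝ) :
    slice F t u = F ⟨(u : ℂ) + t * I, by simpa using ht⟩ := by
  unfold slice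
  rw [ofComplex_apply_of_im_pos]

theorem continuous_slice {F : ℍ → ℂ} (hF : Continuous F) {t : ℝ} (ht : 0 < t) :
    Continuous (slice F t) := by
  have h1 : Continuous fun u : ℝ => (⟨(u : ℂ) + t * I, by simpa using ht⟩ : ℍ) := by
    refine Continuous.upperHalfPlaneMk (f := fun u : ℝ => (u : ℂ) + t * I) ?_ ?_
    fun_prop
  have : slice F t = fun u : ℝ => F ⟨(u : ℂ) + t * I, by simpa using ht⟩ := by
    funext u; exact slice_eq F ht u
  rw [this]
  exact hF.comp h1

/-- The `n`-th `q`-coefficient as a Fourier coefficient of the slice at height `t`. -/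
theorem coeff_eq_fourierCoeffOn {F : ℍ → ℂ} (hper : Periodic (F ∘ ofComplex) 1) (hhol : MDiff F)
    (hbdd : IsBoundedAtImInfty F) (n : ℕ) {t : ℝ} (ht : 0 < t) :
    (qExpansion 1 F).coeff n =
      Real.exp (2 * π * n * t) * fourierCoeffOn (zero_lt_one' ℝ) (slice F t) n := by
  rw [qExpansion_coeff_eq_intervalIntegral (h := 1) one_pos hper hhol hbdd n ht,
    fourierCoeffOn_eq_integral]
  simp only [sub_zero, one_div, inv_one, one_smul, smul_eq_mul, UpperHalfPlane.coe_I,
    Complex.ofReal_one, one_mul]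
  have key : ∀ u : ℝ, (𝕢 1 ((u : ℂ) + t * I) ^ n)⁻¹ =
      (Real.exp (2 * π * n * t) : ℂ) * fourier (-(n : ℤ)) (u : AddCircle ((1 : ℝ) - 0)) := by
    intro u
    rw [fourier_coe_apply, Function.Periodic.qParam, ← Complex.exp_nat_mul, ← Complex.exp_neg,
      Complex.ofReal_exp, ← Complex.exp_add]
    congr 1
    push_cast
    have hI : I * I = -1 := I_mul_I
    linear_combination (-(2 : ℂ) * π * n * t) * hI
  have h2 : ∀ u : ℝ, (𝕢 1 ((u : ℂ) + t * I) ^ n)⁻¹ * F ⟨(u : ℂ) + t * I, by simpa using ht⟩ =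
      (Real.exp (2 * π * n * t) : ℂ) *
        (fourier (-(n : ℤ)) (u : AddCircle ((1 : ℝ) - 0)) * slice F t u) := by
    intro u
    rw [key u, slice_eq F ht u, mul_assoc]
  simp_rw [h2]
  exact intervalIntegral.integral_const_mul _ _

theorem norm_fourierCoeffOn_sq {F : ℍ → ℂ} (hper : Periodic (F ∘ ofComplex) 1) (hhol : MDiff F)
    (hbdd : IsBoundedAtImInfty F) (n : ℕ) {t : ℝ} (ht : 0 < t) :
    ‖fourierCoeffOn (zero_lt_one' ℝ) (slice F t) n‖ ^ 2 =
      ‖(qExpansion 1 F).coeff n‖ ^ 2 * Real.exp (-(4 * π * n * t)) := by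
  rw [coeff_eq_fourierCoeffOn hper hhol hbdd n ht, norm_mul, mul_pow, Complex.norm_real,
    Real.norm_of_nonneg (Real.exp_pos _).le, ← Real.exp_nat_mul _ 2, mul_comm (Real.exp _) _,
    mul_assoc, ← Real.exp_add]
  have : ((2 : ℕ) : ℝ) * (2 * π * n * t) + -(4 * π * n * t) = 0 := by push_cast; ring
  rw [this, Real.exp_zero, mul_one]

/-- **Parseval on a horizontal line**, as an inequality for the finite partial sums. -/
theorem sum_norm_sq_mul_exp_le {F : ℍ → ℂ} (hper : Periodic (F ∘ ofComplex) 1) (hhol : MDiff F)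
    (hbdd : IsBoundedAtImInfty F) {C : ℝ} (hC : ∀ τ : ℍ, ‖F τ‖ ^ 2 * τ.im ≤ C)
    {t : ℝ} (ht : 0 < t) (M : ℕ) :
    ∑ n ∈ Finset.range M, ‖(qExpansion 1 F).coeff n‖ ^ 2 * Real.exp (-(4 * π * n * t)) ≤ C / t := by
  have hcont : Continuous (slice F t) := continuous_slice hhol.continuous ht
  have hbound : ∀ u : ℝ, ‖slice F t u‖ ^ 2 ≤ C / t := by
    intro u
    rw [slice_eq F ht u, le_div_iff₀ ht]
    have := hC ⟨(u : ℂ) + t * I, by simpa using ht⟩
    simpa [UpperHalfPlane.im] using this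
  have hC0 : 0 ≤ C / t := le_trans (by positivity) (hbound 0)
  have hL2 : MemLp (slice F t) 2 (volume.restrict (Ioc (0 : ℝ) 1)) := by
    refine MemLp.of_bound hcont.aestronglyMeasurable (Real.sqrt (C / t)) (Filter.Eventually.of_forall ?_)
    intro u
    rw [← Real.sqrt_sq (norm_nonneg _)]
    exact Real.sqrt_le_sqrt (hbound u)
  have hP := hasSum_sq_fourierCoeffOn (zero_lt_one' ℝ) hL2
  have h1 : ∑ n ∈ Finset.range M, ‖(qExpansion 1 F).coeff n‖ ^ 2 * Real.exp (-(4 * π * n * t)) =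
      ∑ i ∈ (Finset.range M).map ⟨(Nat.cast : ℕ → ℤ), Nat.cast_injective⟩,
        ‖fourierCoeffOn (zero_lt_one' ℝ) (slice F t) i‖ ^ 2 := by
    rw [Finset.sum_map]
    refine Finset.sum_congr rfl fun n _ => ?_
    simp only [Function.Embedding.coeFn_mk]
    rw [norm_fourierCoeffOn_sq hper hhol hbdd n ht]
  rw [h1]
  refine (sum_le_hasSum _ (fun i _ => by positivity) hP).trans ?_
  simp only [sub_zero, inv_one, one_smul]
  have h2 : ∫ x in (0 : ℝ)..1, ‖slice F t x‖ ^ 2 ≤ ∫ _x in (0 : ℝ)..1, C / t := by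
    refine intervalIntegral.integral_mono_on zero_le_one ?_ ?_ fun x _ => hbound x
    · exact (by fun_prop : Continuous fun x => ‖slice F t x‖ ^ 2).intervalIntegrable _ _
    · exact continuous_const.intervalIntegrable _ _
  simpa using h2

/-- **Mean-square bound** for the `q`-coefficients. -/
theorem sum_norm_sq_le {F : ℍ → ℂ} (hper : Periodic (F ∘ ofComplex) 1) (hhol : MDiff F)
    (hbdd : IsBoundedAtImInfty F) {C : ℝ} (hC : ∀ τ : ℍ, ‖F τ‖ ^ 2 * τ.im ≤ C)
    (X : ℕ) (hX : 1 ≤ X) :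
    ∑ n ∈ Finset.range (X + 1), ‖(qExpansion 1 F).coeff n‖ ^ 2 ≤ Real.exp (4 * π) * C * X := by
  have hXpos : (0 : ℝ) < X := by exact_mod_cast hX
  have ht : (0 : ℝ) < 1 / X := by positivity
  have h := sum_norm_sq_mul_exp_le hper hhol hbdd hC ht (X + 1)
  have h2 : ∑ n ∈ Finset.range (X + 1), ‖(qExpansion 1 F).coeff n‖ ^ 2 * Real.exp (-(4 * π)) ≤
      ∑ n ∈ Finset.range (X + 1),
        ‖(qExpansion 1 F).coeff n‖ ^ 2 * Real.exp (-(4 * π * n * (1 / X))) := by
    refine Finset.sum_le_sum fun n hn => ?_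
    refine mul_le_mul_of_nonneg_left (Real.exp_le_exp.mpr ?_) (by positivity)
    have hn' : (n : ℝ) ≤ X := by
      have := Finset.mem_range.mp hn
      exact_mod_cast Nat.lt_succ_iff.mp this
    have : 4 * π * n * (1 / X) ≤ 4 * π := by
      rw [mul_one_div, div_le_iff₀ hXpos]
      have := Real.pi_pos
      nlinarith
    linarith
  rw [← Finset.sum_mul] at h2
  have h3 := h2.trans h
  have hexp : Real.exp (-(4 * π)) = (Real.exp (4 * π))⁻¹ := Real.exp_neg _
  rw [hexp, one_div, div_inv_eq_mul, ← div_eq_mul_inv, div_le_iff₀ (Real.exp_pos _)] at h3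
  linarith

end Fermat.Agent.DS.Rankin.MeanSquare
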