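/-
Programme DS (S48), brick E1' (helper2): the mean-square bound of `MeanSquare` for cusp forms of
weight one on `Γ₁(N)`:  `∑_{n ≤ X} ‖a_n(f)‖ ^ 2 ≤ C * X`.
-/
import Mathlib
import Fermat.Agent.DS.Rankin.MeanSquare

set_option autoImplicit false

open Complex Function
open UpperHalfPlane hiding I
open CongruenceSubgroup
open scoped Real Manifold MatrixGroups

namespace Fermat.Agent.DS.Rankin.CuspBound

theorem T_mem_Gamma1 (N : ℕ) : ModularGroup.T ∈ Gamma1 N := by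
  rw [Gamma1_mem]
  simp [ModularGroup.coe_T]

theorem one_mem_strictPeriods_Gamma1 (N : ℕ) :
    (1 : ℝ) ∈ ((Gamma1 N : Subgroup SL(2, ℤ)) : Subgroup (GL (Fin 2) ℝ)).strictPeriods := by
  rw [Subgroup.strictPeriods_eq_zmultiples_one_of_T_mem (T_mem_Gamma1 N)]
  exact AddSubgroup.mem_zmultiples 1

/-- **Mean-square bound** for weight one cusp forms on `Γ₁(N)`. -/
theorem exists_sum_norm_sq_le (N : ℕ) [NeZero N] (f : CuspForm (Gamma1 N) 1) :
    ∃ C : ℝ, 0 ≤ C ∧ ∀ X : ℕ, 1 ≤ X →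
      ∑ n ∈ Finset.range (X + 1), ‖(qExpansion 1 f).coeff n‖ ^ 2 ≤ C * X := by
  obtain ⟨C, hC⟩ := CuspFormClass.exists_bound f
  have hper : Periodic ((f : ℍ → ℂ) ∘ ofComplex) 1 :=
    SlashInvariantFormClass.periodic_comp_ofComplex f (one_mem_strictPeriods_Gamma1 N)
  have hhol : MDiff (f : ℍ → ℂ) := ModularFormClass.holo f
  have : Fact (IsCusp OnePoint.infty ((Gamma1 N : Subgroup SL(2, ℤ)) : Subgroup (GL (Fin 2) ℝ))) :=
    ⟨Subgroup.isCusp_of_mem_strictPeriods one_pos (one_mem_strictPeriods_Gamma1 N)⟩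
  have hbdd : IsBoundedAtImInfty (f : ℍ → ℂ) := ModularFormClass.bdd_at_infty f
  have hB : ∀ τ : ℍ, ‖f τ‖ ^ 2 * τ.im ≤ C ^ 2 := by
    intro τ
    have h1 := hC τ
    have him : 0 < τ.im := τ.im_pos
    have hpow : (τ.im ^ (((1 : ℤ) : ℝ) / 2)) ^ 2 = τ.im := by
      rw [← Real.rpow_natCast, ← Real.rpow_mul him.le]
      norm_num
    have hpos : 0 < τ.im ^ (((1 : ℤ) : ℝ) / 2) := Real.rpow_pos_of_pos him _
    have h2 : ‖f τ‖ ^ 2 ≤ (C / τ.im ^ (((1 : ℤ) : ℝ) / 2)) ^ 2 :=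
      pow_le_pow_left₀ (norm_nonneg _) h1 2
    rw [div_pow, hpow] at h2
    calc ‖f τ‖ ^ 2 * τ.im ≤ C ^ 2 / τ.im * τ.im := mul_le_mul_of_nonneg_right h2 him.le
      _ = C ^ 2 := div_mul_cancel₀ _ him.ne'
  refine ⟨Real.exp (4 * π) * C ^ 2, by positivity, fun X hX => ?_⟩
  exact MeanSquare.sum_norm_sq_le hper hhol hbdd hB X hX

end Fermat.Agent.DS.Rankin.CuspBound
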