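/-
Programme DS (S48), bricks E2 + E3 (helper2).

* `abel_le` : summation by parts as an inequality: if the partial sums of `w` are `≤ C * M` and `f`
  is nonnegative and antitone then `∑_{i<M} w i * f i ≤ C * ∑_{i<M} f i`.
* `sum_rpow_le` : `∑_{n=1}^{M} n ^ (-s) ≤ s / (s - 1)` for `1 < s`.
* `dirichlet_le` : mean-square bound `⟹` `∑_{n=1}^{M} w n * n ^ (-s) ≤ C * s / (s - 1)`.
* `prod_one_add_le` (the squarefree Euler product trick): for a sequence `b` which is multiplicative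
  on squarefree products of primes not dividing `N`,
  `∏_{p ∈ t} (1 + ‖b p‖ ^ 2 * p ^ (-s)) ≤ ∑_{n=1}^{∏ t} ‖b n‖ ^ 2 * n ^ (-s)`.
* `sum_log_le` : `∑_{p ∈ t} log (1 + ‖b p‖ ^ 2 * p ^ (-s)) ≤ log (1 / (s - 1)) + log (2 * C)`.
-/
import Mathlib

set_option autoImplicit false

open Finset

namespace Fermat.Agent.DS.Rankin.Euler

/-! ### Summation by parts -/

theorem abel_le (w f : ℕ → ℝ) (C : ℝ) (hS : ∀ M, ∑ i ∈ range M, w i ≤ C * M)
    (hf : ∀ n, f (n + 1) ≤ f n) (hf0 : ∀ n, 0 ≤ f n) (M : ℕ) :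
    ∑ i ∈ range M, w i * f i ≤ C * ∑ i ∈ range M, f i := by
  have key : ∀ M, ∑ i ∈ range M, w i * f i + (C * M - ∑ i ∈ range M, w i) * f M ≤
      C * ∑ i ∈ range M, f i := by
    intro M
    induction M with
    | zero => simp
    | succ M ih =>
      rw [sum_range_succ, sum_range_succ, sum_range_succ]
      have h1 := hS (M + 1)
      rw [sum_range_succ] at h1
      have h2 := hf M
      push_cast at h1 ⊢
      nlinarith [mul_nonneg (sub_nonneg.mpr h1) (sub_nonneg.mpr h2)]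
  have h1 := key M
  have h2 : 0 ≤ (C * M - ∑ i ∈ range M, w i) * f M :=
    mul_nonneg (sub_nonneg.mpr (hS M)) (hf0 M)
  linarith

/-! ### The partial sums of `ζ(s)` -/

theorem rpow_neg_le_sub {s : ℝ} (hs : 1 < s) {a : ℝ} (ha : 0 < a) :
    (s - 1) * (a + 1) ^ (-s) ≤ a ^ (1 - s) - (a + 1) ^ (1 - s) := by
  have hb : 0 < a + 1 := by linarith
  -- `(b / a) ^ (s - 1) ≥ 1 + (s - 1) / b`
  have h1 : 1 + (s - 1) * Real.log ((a + 1) / a) ≤ ((a + 1) / a) ^ (s - 1) := by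
    rw [Real.rpow_def_of_pos (div_pos hb ha), mul_comm (Real.log _)]
    linarith [Real.add_one_le_exp ((s - 1) * Real.log ((a + 1) / a))]
  have h2 : 1 - ((a + 1) / a)⁻¹ ≤ Real.log ((a + 1) / a) :=
    Real.one_sub_inv_le_log_of_pos (div_pos hb ha)
  have h3 : 1 - ((a + 1) / a)⁻¹ = 1 / (a + 1) := by
    rw [inv_div]; field_simp; ring
  have h4 : 1 + (s - 1) * (1 / (a + 1)) ≤ ((a + 1) / a) ^ (s - 1) := by
    have : (s - 1) * (1 / (a + 1)) ≤ (s - 1) * Real.log ((a + 1) / a) :=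
      mul_le_mul_of_nonneg_left (h3 ▸ h2) (by linarith)
    linarith
  have h5 : a ^ (1 - s) = (a + 1) ^ (1 - s) * ((a + 1) / a) ^ (s - 1) := by
    rw [Real.div_rpow hb.le ha.le, show (1 - s) = -(s - 1) by ring, Real.rpow_neg hb.le,
      Real.rpow_neg ha.le]
    field_simp
  have h6 : (a + 1) ^ (-s) = (a + 1) ^ (1 - s) * (1 / (a + 1)) := by
    rw [show (-s) = (1 - s) - 1 by ring, Real.rpow_sub_one hb.ne']
    ring
  have hpos : 0 < (a + 1) ^ (1 - s) := Real.rpow_pos_of_pos hb _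
  rw [h5, h6]
  nlinarith [mul_le_mul_of_nonneg_left h4 hpos.le]

theorem sum_rpow_le {s : ℝ} (hs : 1 < s) (M : ℕ) :
    ∑ i ∈ range M, ((i : ℝ) + 1) ^ (-s) ≤ s / (s - 1) := by
  have hs1 : 0 < s - 1 := by linarith
  have key : ∀ M : ℕ, (s - 1) * ∑ i ∈ range (M + 1), ((i : ℝ) + 1) ^ (-s) ≤
      (s - 1) + 1 - ((M : ℝ) + 1) ^ (1 - s) := by
    intro M
    induction M with
    | zero => simp
    | succ M ih =>
      rw [sum_range_succ, mul_add]
      have h := rpow_neg_le_sub hs (a := (M : ℝ) + 1) (by positivity)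
      push_cast
      linarith
  rcases M with _ | M
  · simp only [range_zero, sum_empty]
    exact div_nonneg (by linarith) hs1.le
  · rw [le_div_iff₀ hs1, mul_comm]
    have h := key M
    have hpos : 0 < ((M : ℝ) + 1) ^ (1 - s) := Real.rpow_pos_of_pos (by positivity) _
    linarith

/-- From the mean-square bound to the Dirichlet series bound. -/
theorem dirichlet_le (w : ℕ → ℝ) (hw : ∀ n, 0 ≤ w n) (C : ℝ)
    (hS : ∀ X : ℕ, 1 ≤ X → ∑ n ∈ range (X + 1), w n ≤ C * X) {s : ℝ} (hs : 1 < s) (M : ℕ) :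
    ∑ n ∈ Icc 1 M, w n * (n : ℝ) ^ (-s) ≤ C * (s / (s - 1)) := by
  have hC : 0 ≤ C := by
    have := hS 1 le_rfl
    have h0 : 0 ≤ ∑ n ∈ range (1 + 1), w n := sum_nonneg fun n _ => hw n
    simpa using h0.trans this
  have h1 : ∑ n ∈ Icc 1 M, w n * (n : ℝ) ^ (-s) =
      ∑ i ∈ range M, w (i + 1) * ((i : ℝ) + 1) ^ (-s) := by
    have h0 : ∑ i ∈ range M, w (i + 1) * ((i : ℝ) + 1) ^ (-s) =
        ∑ i ∈ Ico 0 M, (fun n : ℕ => w n * (n : ℝ) ^ (-s)) (i + 1) := by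
      rw [range_eq_Ico]
      refine sum_congr rfl fun n _ => ?_
      push_cast
      rfl
    rw [h0, sum_Ico_add' (fun n : ℕ => w n * (n : ℝ) ^ (-s)) 0 M 1]
    have : Ico (0 + 1) (M + 1) = Icc 1 M := by
      ext x; simp
    rw [this]
  rw [h1]
  have hS' : ∀ M, ∑ i ∈ range M, w (i + 1) ≤ C * M := by
    intro M
    rcases Nat.eq_zero_or_pos M with rfl | hM
    · simp
    · have h2 := hS M hM
      rw [sum_range_succ'] at h2
      linarith [hw 0]
  have h2 := abel_le (fun i => w (i + 1)) (fun i => ((i : ℝ) + 1) ^ (-s)) C hS'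
    (fun n => by
      push_cast
      exact Real.rpow_le_rpow_of_nonpos (by positivity) (by linarith) (by linarith))
    (fun n => by positivity) M
  exact h2.trans (mul_le_mul_of_nonneg_left (sum_rpow_le hs M) hC)

/-! ### The squarefree Euler product -/

section Squarefree

variable (b : ℕ → ℂ) (N : ℕ)

/-- `b` is multiplicative on products of distinct primes not dividing `N`. -/
def SqfreeMult : Prop :=
  b 1 = 1 ∧ ∀ p : ℕ, p.Prime → ¬ p ∣ N → ∀ n : ℕ, ¬ p ∣ n → b (p * n) = b p * b n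

variable {b N}

theorem SqfreeMult.map_prod (hb : SqfreeMult b N) (t : Finset ℕ)
    (ht : ∀ p ∈ t, p.Prime ∧ ¬ p ∣ N) : b (∏ p ∈ t, p) = ∏ p ∈ t, b p := by
  classical
  induction t using Finset.induction_on with
  | empty => simpa using hb.1
  | insert a t ha ih =>
    have hat := ht a (mem_insert_self a t)
    have ht' : ∀ p ∈ t, p.Prime ∧ ¬ p ∣ N := fun p hp => ht p (mem_insert_of_mem hp)
    rw [prod_insert ha, prod_insert ha, ← ih ht']
    refine hb.2 a hat.1 hat.2 _ ?_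
    intro hdvd
    obtain ⟨p, hp, hap⟩ := (Prime.dvd_finsetProd_iff hat.1.prime _).mp hdvd
    have : a = p := (Nat.prime_dvd_prime_iff_eq hat.1 (ht' p hp).1).mp hap
    exact ha (this ▸ hp)

theorem prod_one_add_le (hb : SqfreeMult b N) (t : Finset ℕ)
    (ht : ∀ p ∈ t, p.Prime ∧ ¬ p ∣ N) (s : ℝ) :
    ∏ p ∈ t, (1 + ‖b p‖ ^ 2 * (p : ℝ) ^ (-s)) ≤
      ∑ n ∈ Icc 1 (∏ p ∈ t, p), ‖b n‖ ^ 2 * (n : ℝ) ^ (-s) := by
  classical
  rw [prod_one_add]
  have hprime : ∀ u ∈ t.powerset, ∀ p ∈ u, p.Prime := fun u hu p hp =>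
    (ht p (mem_powerset.mp hu hp)).1
  have hterm : ∀ u ∈ t.powerset, ∏ p ∈ u, ‖b p‖ ^ 2 * (p : ℝ) ^ (-s) =
      ‖b (∏ p ∈ u, p)‖ ^ 2 * ((∏ p ∈ u, p : ℕ) : ℝ) ^ (-s) := by
    intro u hu
    rw [hb.map_prod u (fun p hp => ht p (mem_powerset.mp hu hp)), prod_mul_distrib, norm_prod,
      prod_pow]
    congr 1
    push_cast
    rw [Real.finsetProd_rpow _ _ (fun p _ => by positivity)]
  rw [sum_congr rfl hterm]
  have hinj : Set.InjOn (fun u : Finset ℕ => ∏ p ∈ u, p) (t.powerset : Set (Finset ℕ)) := by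
    intro u hu v hv huv
    have h1 := Nat.primeFactors_prod (hprime u hu)
    have h2 := Nat.primeFactors_prod (hprime v hv)
    simp only at huv
    rw [← h1, ← h2, huv]
  rw [← sum_image (f := fun n : ℕ => ‖b n‖ ^ 2 * (n : ℝ) ^ (-s)) hinj]
  refine sum_le_sum_of_subset_of_nonneg ?_ (fun n _ _ => by positivity)
  intro n hn
  obtain ⟨u, hu, rfl⟩ := mem_image.mp hn
  rw [mem_Icc]
  refine ⟨Nat.one_le_iff_ne_zero.mpr (prod_ne_zero_iff.mpr fun p hp => (hprime u hu p hp).ne_zero),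
    Nat.le_of_dvd (Nat.pos_of_ne_zero (prod_ne_zero_iff.mpr fun p hp => (ht p hp).1.ne_zero))
      (prod_dvd_prod_of_subset _ _ _ (mem_powerset.mp hu))⟩

/-- **The Rankin-type bound over primes** (squarefree form). -/
theorem sum_log_le (hb : SqfreeMult b N) {C : ℝ}
    (hS : ∀ X : ℕ, 1 ≤ X → ∑ n ∈ range (X + 1), ‖b n‖ ^ 2 ≤ C * X)
    {s : ℝ} (hs : 1 < s) (hs2 : s ≤ 2) (t : Finset ℕ) (ht : ∀ p ∈ t, p.Prime ∧ ¬ p ∣ N) :
    ∑ p ∈ t, Real.log (1 + ‖b p‖ ^ 2 * (p : ℝ) ^ (-s)) ≤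
      Real.log (1 / (s - 1)) + Real.log (2 * C) := by
  have hs1 : 0 < s - 1 := by linarith
  have hpos : ∀ p ∈ t, 0 < 1 + ‖b p‖ ^ 2 * (p : ℝ) ^ (-s) := fun p _ => by positivity
  rw [← Real.log_prod (fun p hp => (hpos p hp).ne')]
  have h1 := prod_one_add_le hb t ht s
  have h2 := dirichlet_le (fun n => ‖b n‖ ^ 2) (fun n => by positivity) C hS hs (∏ p ∈ t, p)
  have hprod : 0 < ∏ p ∈ t, (1 + ‖b p‖ ^ 2 * (p : ℝ) ^ (-s)) := prod_pos hpos
  have hC : 0 ≤ C := by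
    have := hS 1 le_rfl
    have h0 : 0 ≤ ∑ n ∈ range (1 + 1), ‖b n‖ ^ 2 := sum_nonneg fun n _ => by positivity
    simpa using h0.trans this
  have h3 : C * (s / (s - 1)) ≤ 1 / (s - 1) * (2 * C) := by
    rw [mul_div_assoc', div_le_iff₀ hs1]
    have : 1 / (s - 1) * (2 * C) * (s - 1) = 2 * C := by field_simp
    rw [this]
    nlinarith
  have h4 : ∏ p ∈ t, (1 + ‖b p‖ ^ 2 * (p : ℝ) ^ (-s)) ≤ 1 / (s - 1) * (2 * C) :=
    (h1.trans h2).trans h3
  have hC2 : 0 < 2 * C := by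
    by_contra hcon
    have : 1 / (s - 1) * (2 * C) ≤ 0 :=
      mul_nonpos_of_nonneg_of_nonpos (by positivity) (not_lt.mp hcon)
    linarith
  rw [← Real.log_mul (by positivity) hC2.ne']
  exact Real.log_le_log hprod h4

end Squarefree

end Fermat.Agent.DS.Rankin.Euler
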