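/-
Programme DS (S48), brick E4 (helper2): Deligne–Serre Prop. 5.5 in the shape needed for Lemma 8.4.

* `UpperDensityLE X η` : the set of primes `X` has upper Dirichlet density `≤ η`, in the finset form
  `∑_{p ∈ t} p ^ (-s) ≤ η * log (1 / (s - 1)) + B` for all finite `t ⊆ X`, `1 < s ≤ 2`.
* `upperDensityLE_large` : for finitely many sequences `b i`, multiplicative on squarefree products
  of primes not dividing `N` and with linear mean-square growth, the primes `p ∤ N` with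
  `c < ∑ i, ‖b i p‖ ^ 2` have upper density `≤ r ^ 2 / c`  (`r` the number of sequences).
* `exists_finset_upperDensityLE` : the number field form: if the `a p` are integers of a number field
  `K` and every conjugate sequence has the above properties, then for every `η > 0` there is a
  finite set `Y` of integers of `K` such that `{p ∤ N | a p ∉ Y}` has upper density `≤ η`.
-/
import Mathlib
import Fermat.Agent.DS.Rankin.Euler

set_option autoImplicit false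

open Finset

namespace Fermat.Agent.DS.Rankin.Density

open Fermat.Agent.DS.Rankin.Euler

/-- Upper Dirichlet density `≤ η` (finset form, with an `O(1)` uniform on `(1, 2]`). -/
def UpperDensityLE (X : Set ℕ) (η : ℝ) : Prop :=
  ∃ B : ℝ, ∀ s : ℝ, 1 < s → s ≤ 2 → ∀ t : Finset ℕ, (∀ p ∈ t, p.Prime ∧ p ∈ X) →
    ∑ p ∈ t, (p : ℝ) ^ (-s) ≤ η * Real.log (1 / (s - 1)) + B

theorem UpperDensityLE.mono {X Y : Set ℕ} {η : ℝ} (h : UpperDensityLE Y η) (hXY : X ⊆ Y) :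
    UpperDensityLE X η := by
  obtain ⟨B, hB⟩ := h
  exact ⟨B, fun s hs hs2 t ht => hB s hs hs2 t fun p hp => ⟨(ht p hp).1, hXY (ht p hp).2⟩⟩

theorem log_one_div_nonneg {s : ℝ} (hs : 1 < s) (hs2 : s ≤ 2) : 0 ≤ Real.log (1 / (s - 1)) := by
  apply Real.log_nonneg
  rw [le_div_iff₀ (by linarith)]
  linarith

theorem UpperDensityLE.mono_right {X : Set ℕ} {η η' : ℝ} (h : UpperDensityLE X η) (hη : η ≤ η') :
    UpperDensityLE X η' := by
  obtain ⟨B, hB⟩ := h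
  refine ⟨B, fun s hs hs2 t ht => (hB s hs hs2 t ht).trans ?_⟩
  have := mul_le_mul_of_nonneg_right hη (log_one_div_nonneg hs hs2)
  linarith

theorem sub_sq_le_log_one_add {x : ℝ} (hx : 0 ≤ x) : x - x ^ 2 ≤ Real.log (1 + x) := by
  have h1 : 0 < 1 + x := by linarith
  have h2 := Real.one_sub_inv_le_log_of_pos h1
  have h3 : x - x ^ 2 ≤ 1 - (1 + x)⁻¹ := by
    rw [show (1 : ℝ) - (1 + x)⁻¹ = x / (1 + x) by field_simp; ring, le_div_iff₀ h1]
    nlinarith [pow_nonneg hx 3]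
  linarith

theorem sum_rpow_neg_two_le (t : Finset ℕ) (ht : ∀ p ∈ t, 1 ≤ p) :
    ∑ p ∈ t, (p : ℝ) ^ (-(2 : ℝ)) ≤ 2 := by
  have hsub : t ⊆ Icc 1 (t.sup id) := fun p hp =>
    mem_Icc.mpr ⟨ht p hp, Finset.le_sup (f := id) hp⟩
  refine (sum_le_sum_of_subset_of_nonneg hsub fun p _ _ => by positivity).trans ?_
  have h1 : ∑ n ∈ Icc 1 (t.sup id), (n : ℝ) ^ (-(2 : ℝ)) =
      ∑ i ∈ range (t.sup id), ((i : ℝ) + 1) ^ (-(2 : ℝ)) := by
    have h0 : ∑ i ∈ range (t.sup id), ((i : ℝ) + 1) ^ (-(2 : ℝ)) =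
        ∑ i ∈ Ico 0 (t.sup id), (fun n : ℕ => (n : ℝ) ^ (-(2 : ℝ))) (i + 1) := by
      rw [range_eq_Ico]
      refine sum_congr rfl fun n _ => ?_
      push_cast
      rfl
    rw [h0, sum_Ico_add' (fun n : ℕ => (n : ℝ) ^ (-(2 : ℝ))) 0 (t.sup id) 1]
    have : Ico (0 + 1) (t.sup id + 1) = Icc 1 (t.sup id) := by
      ext x; simp
    rw [this]
  rw [h1]
  have h2 := sum_rpow_le (s := 2) (by norm_num) (t.sup id)
  norm_num at h2 ⊢
  exact h2

section Large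

variable {ι : Type*} [Fintype ι] (b : ι → ℕ → ℂ) (N : ℕ)

/-- The primes `p ∤ N` at which the sequences `b i` are jointly large. -/
def largeSet (c : ℝ) : Set ℕ := {p | ¬ p ∣ N ∧ c < ∑ i, ‖b i p‖ ^ 2}

variable {b N}

theorem upperDensityLE_large [Nonempty ι] (hb : ∀ i, SqfreeMult (b i) N)
    (hS : ∀ i, ∃ C : ℝ, ∀ X : ℕ, 1 ≤ X → ∑ n ∈ range (X + 1), ‖b i n‖ ^ 2 ≤ C * X)
    {c : ℝ} (hc : 0 < c) :
    UpperDensityLE (largeSet b N c) ((Fintype.card ι : ℝ) ^ 2 / c) := by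
  classical
  choose C hC using hS
  set r : ℝ := (Fintype.card ι : ℝ) with hr
  have hr0 : 0 < r := by
    rw [hr]; exact_mod_cast Fintype.card_pos
  set A : ℝ := c / r with hA
  have hA0 : 0 < A := div_pos hc hr0
  refine ⟨(∑ i, Real.log (2 * C i) + 2 * A ^ 2) / A, fun s hs hs2 t ht => ?_⟩
  have htN : ∀ p ∈ t, p.Prime ∧ ¬ p ∣ N := fun p hp => ⟨(ht p hp).1, (ht p hp).2.1⟩
  -- upper bound for the double sum
  have hup : ∑ i, ∑ p ∈ t, Real.log (1 + ‖b i p‖ ^ 2 * (p : ℝ) ^ (-s)) ≤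
      r * Real.log (1 / (s - 1)) + ∑ i, Real.log (2 * C i) := by
    calc ∑ i, ∑ p ∈ t, Real.log (1 + ‖b i p‖ ^ 2 * (p : ℝ) ^ (-s))
        ≤ ∑ i : ι, (Real.log (1 / (s - 1)) + Real.log (2 * C i)) :=
          sum_le_sum fun i _ => sum_log_le (hb i) (hC i) hs hs2 t htN
      _ = r * Real.log (1 / (s - 1)) + ∑ i, Real.log (2 * C i) := by
          rw [sum_add_distrib, sum_const, card_univ, nsmul_eq_mul]
  -- lower bound, prime by prime
  have hlow : ∀ p ∈ t, A * (p : ℝ) ^ (-s) - A ^ 2 * (p : ℝ) ^ (-(2 : ℝ)) ≤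
      ∑ i, Real.log (1 + ‖b i p‖ ^ 2 * (p : ℝ) ^ (-s)) := by
    intro p hp
    have hp1 : (1 : ℝ) ≤ p := by exact_mod_cast (ht p hp).1.one_lt.le
    have hy0 : 0 < (p : ℝ) ^ (-s) := Real.rpow_pos_of_pos (by linarith) _
    have hlarge : c < ∑ i, ‖b i p‖ ^ 2 := (ht p hp).2.2
    obtain ⟨i, hi⟩ : ∃ i, A < ‖b i p‖ ^ 2 := by
      by_contra hcon
      push Not at hcon
      have : ∑ i, ‖b i p‖ ^ 2 ≤ ∑ _i : ι, A := sum_le_sum fun i _ => hcon i
      rw [sum_const, card_univ, nsmul_eq_mul, ← hr, hA, mul_div_cancel₀ _ hr0.ne'] at this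
      linarith
    have h1 : Real.log (1 + A * (p : ℝ) ^ (-s)) ≤
        Real.log (1 + ‖b i p‖ ^ 2 * (p : ℝ) ^ (-s)) := by
      apply Real.log_le_log (by positivity)
      have := mul_le_mul_of_nonneg_right hi.le hy0.le
      linarith
    have h2 : Real.log (1 + ‖b i p‖ ^ 2 * (p : ℝ) ^ (-s)) ≤
        ∑ j, Real.log (1 + ‖b j p‖ ^ 2 * (p : ℝ) ^ (-s)) :=
      single_le_sum (f := fun j => Real.log (1 + ‖b j p‖ ^ 2 * (p : ℝ) ^ (-s)))
        (fun j _ => Real.log_nonneg (by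
          have : 0 ≤ ‖b j p‖ ^ 2 * (p : ℝ) ^ (-s) := by positivity
          linarith)) (mem_univ i)
    have h3 := sub_sq_le_log_one_add (x := A * (p : ℝ) ^ (-s)) (by positivity)
    have h4 : ((p : ℝ) ^ (-s)) ^ 2 ≤ (p : ℝ) ^ (-(2 : ℝ)) := by
      rw [← Real.rpow_natCast, ← Real.rpow_mul (by linarith)]
      apply Real.rpow_le_rpow_of_exponent_le hp1
      push_cast; linarith
    have h5 : (A * (p : ℝ) ^ (-s)) ^ 2 ≤ A ^ 2 * (p : ℝ) ^ (-(2 : ℝ)) := by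
      rw [mul_pow]
      exact mul_le_mul_of_nonneg_left h4 (by positivity)
    linarith
  have hsum : ∑ p ∈ t, (A * (p : ℝ) ^ (-s) - A ^ 2 * (p : ℝ) ^ (-(2 : ℝ))) ≤
      ∑ i, ∑ p ∈ t, Real.log (1 + ‖b i p‖ ^ 2 * (p : ℝ) ^ (-s)) := by
    rw [sum_comm]
    exact sum_le_sum hlow
  rw [sum_sub_distrib, ← mul_sum, ← mul_sum] at hsum
  have h2 := sum_rpow_neg_two_le t fun p hp => (ht p hp).1.one_lt.le
  have h3 : A ^ 2 * ∑ p ∈ t, (p : ℝ) ^ (-(2 : ℝ)) ≤ 2 * A ^ 2 := by nlinarith [sq_nonneg A]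
  have h4 : A * ∑ p ∈ t, (p : ℝ) ^ (-s) ≤
      r * Real.log (1 / (s - 1)) + (∑ i, Real.log (2 * C i) + 2 * A ^ 2) := by linarith
  have h5 : r ^ 2 / c = r / A := by
    rw [hA]; field_simp
  rw [h5, div_mul_eq_mul_div, ← add_div, le_div_iff₀ hA0]
  linarith

end Large

/-! ### Number field form -/

section NumberField

open NumberField

variable {K : Type*} [Field K] [NumberField K]

theorem exists_finset_upperDensityLE (a : ℕ → 𝓞 K) (N : ℕ) (b : (K →+* ℂ) → ℕ → ℂ)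
    (hb : ∀ φ, SqfreeMult (b φ) N)
    (hab : ∀ (φ : K →+* ℂ) (p : ℕ), p.Prime → ¬ p ∣ N → b φ p = φ (a p : K))
    (hS : ∀ φ, ∃ C : ℝ, ∀ X : ℕ, 1 ≤ X → ∑ n ∈ range (X + 1), ‖b φ n‖ ^ 2 ≤ C * X)
    {η : ℝ} (hη : 0 < η) :
    ∃ Y : Finset (𝓞 K), UpperDensityLE {p | p.Prime ∧ ¬ p ∣ N ∧ a p ∉ Y} η := by
  classical
  have : Nonempty (K →+* ℂ) := inferInstance
  set r : ℝ := (Fintype.card (K →+* ℂ) : ℝ) with hr
  have hr0 : 0 < r := by rw [hr]; exact_mod_cast Fintype.card_pos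
  set c : ℝ := r ^ 2 / η with hc
  have hc0 : 0 < c := by positivity
  have hfin := NumberField.Embeddings.finite_of_norm_le K ℂ (Real.sqrt c)
  have hfin' : {x : 𝓞 K | ∀ φ : K →+* ℂ, ‖φ (x : K)‖ ≤ Real.sqrt c}.Finite := by
    refine Set.Finite.of_finite_image (f := fun x : 𝓞 K => (x : K)) (hfin.subset ?_)
      (fun x _ y _ h => RingOfIntegers.ext h)
    rintro _ ⟨x, hx, rfl⟩
    exact ⟨x.2, hx⟩
  refine ⟨hfin'.toFinset, ?_⟩
  have h1 := upperDensityLE_large (b := b) (N := N) hb hS hc0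
  have h2 : r ^ 2 / c = η := by
    rw [hc]; field_simp
  rw [← hr, h2] at h1
  refine h1.mono ?_
  rintro p ⟨hp, hpN, hpY⟩
  refine ⟨hpN, ?_⟩
  rw [Set.Finite.mem_toFinset, Set.mem_ofPred_eq] at hpY
  push Not at hpY
  obtain ⟨φ, hφ⟩ := hpY
  have h3 : c < ‖b φ p‖ ^ 2 := by
    rw [hab φ p hp hpN]
    have := Real.sqrt_nonneg c
    calc c = Real.sqrt c ^ 2 := (Real.sq_sqrt hc0.le).symm
      _ < ‖φ (a p : K)‖ ^ 2 := by
        apply pow_lt_pow_left₀ hφ this (by norm_num)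
  exact h3.trans_le (single_le_sum (f := fun ψ => ‖b ψ p‖ ^ 2) (fun ψ _ => by positivity)
    (mem_univ φ))

end NumberField

end Fermat.Agent.DS.Rankin.Density
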