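/-
Programme DS (S48), brick E (helper2), summary file: the Rankin-type bound for the weight one form
`f` of the statement S48 itself (the conjugate sequences are handled by `Density` once they are
known to have linear mean-square growth).

With `a n := (qExpansion 1 f).coeff n` (this is `ModularFormClass.qCoeff f n` of the prelude, by
`rfl`):
* `sqfreeMult_of_hecke` : the Hecke relations `hT` of S48 give multiplicativity on squarefree
  products of primes not dividing `N`;
* `exists_sum_log_le` : `∑_{p ∈ t} log (1 + ‖a p‖ ^ 2 * p ^ (-s)) ≤ log (1 / (s - 1)) + B`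
  for all finite sets `t` of primes not dividing `N` and `1 < s ≤ 2`.
-/
import Mathlib
import Fermat.Agent.DS.Rankin.CuspBound
import Fermat.Agent.DS.Rankin.Density

set_option autoImplicit false

open CongruenceSubgroup UpperHalfPlane
open scoped MatrixGroups

namespace Fermat.Agent.DS.Rankin.Main

open Fermat.Agent.DS.Rankin.Euler Fermat.Agent.DS.Rankin.Density

/-- The Hecke relations of S48 (for a sequence `a` and a multiplier `e p`) give `SqfreeMult`. -/
theorem sqfreeMult_of_hecke (a : ℕ → ℂ) (e : ℕ → ℂ) (N : ℕ) (h1 : a 1 = 1)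
    (hT : ∀ p : ℕ, p.Prime → ¬ p ∣ N → ∀ n : ℕ,
      a (p * n) + e p * (if p ∣ n then a (n / p) else 0) = a p * a n) :
    SqfreeMult a N := by
  refine ⟨h1, fun p hp hpN n hn => ?_⟩
  have := hT p hp hpN n
  rw [if_neg hn, mul_zero, add_zero] at this
  exact this

/-- **Rankin-type bound over primes** for a weight one cusp form on `Γ₁(N)` satisfying the Hecke
relations of S48. -/
theorem exists_sum_log_le (N : ℕ) [NeZero N] (f : CuspForm (Gamma1 N) 1) (e : ℕ → ℂ)
    (h1 : (qExpansion 1 f).coeff 1 = 1)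
    (hT : ∀ p : ℕ, p.Prime → ¬ p ∣ N → ∀ n : ℕ,
      (qExpansion 1 f).coeff (p * n) +
          e p * (if p ∣ n then (qExpansion 1 f).coeff (n / p) else 0) =
        (qExpansion 1 f).coeff p * (qExpansion 1 f).coeff n) :
    ∃ B : ℝ, ∀ s : ℝ, 1 < s → s ≤ 2 → ∀ t : Finset ℕ, (∀ p ∈ t, p.Prime ∧ ¬ p ∣ N) →
      ∑ p ∈ t, Real.log (1 + ‖(qExpansion 1 f).coeff p‖ ^ 2 * (p : ℝ) ^ (-s)) ≤
        Real.log (1 / (s - 1)) + B := by
  obtain ⟨C, _, hC⟩ := CuspBound.exists_sum_norm_sq_le N f
  have hb := sqfreeMult_of_hecke (fun n => (qExpansion 1 f).coeff n) e N h1 hT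
  exact ⟨Real.log (2 * C), fun s hs hs2 t ht => sum_log_le hb hC hs hs2 t ht⟩

end Fermat.Agent.DS.Rankin.Main
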