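/-
Programme DS (S48), brick E (helper2): the results of `DS/Rankin` in the vocabulary of the
contract file `DS/Iface` (helper54).

* `upperDensityLE_iface` : the `O(1)`-form `Density.UpperDensityLE` implies `Iface.UpperDensityLE`.
* `badModulus S` : the product of the primes in the finite set `S`; a prime `p` is outside `S` iff it
  does not divide `badModulus S`.
* `rankin_log` : the log form of `Iface.RankinBound` (any level `M`, any finite bad set `S`, any
  multiplier `e`; no unimodularity needed):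
  `∑' p ∉ S, log (1 + ‖a_p‖ ^ 2 * p ^ (-s)) ≤ log (1 / (s - 1)) + C` on `(1, 2]`.
* `rankin_of_bounded` : the conclusion of `Iface.RankinBound` verbatim, under the extra hypothesis
  `‖a_p‖ ^ 2 ≤ A` for the primes `p ∉ S` (what the irreducibility brick B7 uses, with `A = 4`).
-/
import Mathlib
import Fermat.Agent.DS.Iface
import Fermat.Agent.DS.Rankin.Main

set_option autoImplicit false

open CongruenceSubgroup Filter Topology Finset
open scoped MatrixGroups

namespace Fermat.Agent.DS.Rankin.IfaceAdapter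

open Fermat.Agent.DS.Rankin.Euler Fermat.Agent.DS.Rankin.Density Fermat.Agent.DS

/-! ### From finset bounds to `tsum` bounds -/

theorem tsum_indicator_le {P : ℕ → Prop} (g : ℕ → ℝ) (hg : ∀ n, 0 ≤ g n) (B : ℝ)
    (h : ∀ t : Finset ℕ, (∀ p ∈ t, P p) → ∑ p ∈ t, g p ≤ B) :
    (∑' n : ℕ, Set.indicator {p : ℕ | P p} g n) ≤ B := by
  classical
  refine Real.tsum_le_of_sum_le (fun n => Set.indicator_nonneg (fun p _ => hg p) n) fun u => ?_
  have h1 : ∑ n ∈ u, Set.indicator {p : ℕ | P p} g n = ∑ n ∈ u.filter P, g n := by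
    rw [sum_filter]
    refine sum_congr rfl fun n _ => ?_
    by_cases hn : P n
    · rw [Set.indicator_of_mem (by exact hn), if_pos hn]
    · rw [Set.indicator_of_notMem (by exact hn), if_neg hn]
  rw [h1]
  exact h _ fun p hp => (mem_filter.mp hp).2

theorem tendsto_log_one_div_sub_one :
    Tendsto (fun s : ℝ => Real.log (1 / (s - 1))) (𝓝[>] (1 : ℝ)) atTop := by
  have h1 : Tendsto (fun s : ℝ => s - 1) (𝓝[>] (1 : ℝ)) (𝓝[>] (0 : ℝ)) := by
    refine tendsto_nhdsWithin_of_tendsto_nhds_of_eventually_within _ ?_ ?_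
    · have : Tendsto (fun s : ℝ => s - 1) (𝓝 (1 : ℝ)) (𝓝 (1 - 1)) :=
        (continuous_id.sub continuous_const).tendsto 1
      simpa using this.mono_left nhdsWithin_le_nhds
    · filter_upwards [self_mem_nhdsWithin] with s hs
      simpa using hs
  have h2 : Tendsto (fun x : ℝ => 1 / x) (𝓝[>] (0 : ℝ)) atTop := by
    simpa [one_div] using tendsto_inv_nhdsGT_zero (𝕜 := ℝ)
  exact Real.tendsto_log_atTop.comp (h2.comp h1)

/-- The `O(1)`-form of the upper density bound implies the contract form. -/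
theorem upperDensityLE_iface {X : Set ℕ} {η : ℝ} (h : Density.UpperDensityLE X η) :
    Iface.UpperDensityLE X η := by
  obtain ⟨B, hB⟩ := h
  intro δ hδ
  have h1 : ∀ᶠ s in 𝓝[>] (1 : ℝ), B / δ ≤ Real.log (1 / (s - 1)) :=
    tendsto_log_one_div_sub_one.eventually_ge_atTop (B / δ)
  have h2 : ∀ᶠ s in 𝓝[>] (1 : ℝ), s ≤ 2 := by
    have : Set.Iic (2 : ℝ) ∈ 𝓝 (1 : ℝ) := Iic_mem_nhds (by norm_num)
    exact mem_nhdsWithin_of_mem_nhds this
  filter_upwards [h1, h2, self_mem_nhdsWithin] with s hs1 hs2 hs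
  have hs' : 1 < s := hs
  have h3 : Iface.primeSum X s ≤ η * Real.log (1 / (s - 1)) + B := by
    unfold Iface.primeSum
    exact tsum_indicator_le (P := fun p => p.Prime ∧ p ∈ X) (fun p : ℕ => (p : ℝ) ^ (-s))
      (fun n => by positivity) _ fun t ht => hB s hs' hs2 t ht
  have h4 : B ≤ δ * Real.log (1 / (s - 1)) := by
    rw [div_le_iff₀ hδ] at hs1
    linarith
  linarith

/-! ### The bad modulus of a finite set of primes -/

/-- The product of the primes in `S`. -/
def badModulus (S : Finset ℕ) : ℕ := ∏ p ∈ S.filter Nat.Prime, p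

theorem not_dvd_badModulus_iff (S : Finset ℕ) {p : ℕ} (hp : p.Prime) :
    ¬ p ∣ badModulus S ↔ p ∉ S := by
  unfold badModulus
  rw [Prime.dvd_finsetProd_iff hp.prime]
  constructor
  · intro h hpS
    exact h ⟨p, mem_filter.mpr ⟨hpS, hp⟩, dvd_rfl⟩
  · rintro h ⟨q, hq, hpq⟩
    have hq' := mem_filter.mp hq
    have : p = q := (Nat.prime_dvd_prime_iff_eq hp hq'.2).mp hpq
    exact h (this ▸ hq'.1)

/-! ### Rankin bounds in contract vocabulary -/

section Rankin

variable (M : ℕ) [NeZero M] (g : CuspForm (Gamma1 M) 1) (S : Finset ℕ) (e : ℕ → ℂ)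

omit [NeZero M] in
theorem sqfreeMult_qCoeff
    (h1 : ModularFormClass.qCoeff g 1 = 1)
    (hT : ∀ p : ℕ, p.Prime → p ∉ S → ∀ n : ℕ,
      ModularFormClass.qCoeff g (p * n) +
          e p * (if p ∣ n then ModularFormClass.qCoeff g (n / p) else 0) =
        ModularFormClass.qCoeff g p * ModularFormClass.qCoeff g n) :
    SqfreeMult (fun n => ModularFormClass.qCoeff g n) (badModulus S) := by
  refine ⟨h1, fun p hp hpN n hn => ?_⟩
  have := hT p hp ((not_dvd_badModulus_iff S hp).mp hpN) n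
  rw [if_neg hn, mul_zero, add_zero] at this
  exact this

/-- finset form of the log-Rankin bound, contract hypotheses. -/
theorem rankin_log_finset
    (h1 : ModularFormClass.qCoeff g 1 = 1)
    (hT : ∀ p : ℕ, p.Prime → p ∉ S → ∀ n : ℕ,
      ModularFormClass.qCoeff g (p * n) +
          e p * (if p ∣ n then ModularFormClass.qCoeff g (n / p) else 0) =
        ModularFormClass.qCoeff g p * ModularFormClass.qCoeff g n) :
    ∃ C : ℝ, ∀ s : ℝ, 1 < s → s ≤ 2 → ∀ t : Finset ℕ, (∀ p ∈ t, p.Prime ∧ p ∉ S) →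
      ∑ p ∈ t, Real.log (1 + ‖ModularFormClass.qCoeff g p‖ ^ 2 * (p : ℝ) ^ (-s)) ≤
        Real.log (1 / (s - 1)) + C := by
  obtain ⟨C, _, hC⟩ := CuspBound.exists_sum_norm_sq_le M g
  have hb := sqfreeMult_qCoeff M g S e h1 hT
  refine ⟨Real.log (2 * C), fun s hs hs2 t ht => ?_⟩
  exact sum_log_le hb (C := C) hC hs hs2 t fun p hp =>
    ⟨(ht p hp).1, (not_dvd_badModulus_iff S (ht p hp).1).mpr (ht p hp).2⟩

/-- **Log form of `Iface.RankinBound`.** -/
theorem rankin_log
    (h1 : ModularFormClass.qCoeff g 1 = 1)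
    (hT : ∀ p : ℕ, p.Prime → p ∉ S → ∀ n : ℕ,
      ModularFormClass.qCoeff g (p * n) +
          e p * (if p ∣ n then ModularFormClass.qCoeff g (n / p) else 0) =
        ModularFormClass.qCoeff g p * ModularFormClass.qCoeff g n) :
    ∃ C : ℝ, ∀ s : ℝ, 1 < s → s ≤ 2 →
      (∑' n : ℕ, Set.indicator {p : ℕ | p.Prime ∧ p ∉ S}
        (fun p : ℕ => Real.log (1 + ‖ModularFormClass.qCoeff g p‖ ^ 2 * (p : ℝ) ^ (-s))) n) ≤
        Real.log (1 / (s - 1)) + C := by
  obtain ⟨C, hC⟩ := rankin_log_finset M g S e h1 hT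
  refine ⟨C, fun s hs hs2 => ?_⟩
  refine tsum_indicator_le (P := fun p => p.Prime ∧ p ∉ S) _ (fun n => ?_) _
    fun t ht => hC s hs hs2 t ht
  apply Real.log_nonneg
  have : 0 ≤ ‖ModularFormClass.qCoeff g n‖ ^ 2 * (n : ℝ) ^ (-s) := by positivity
  linarith

/-- **The conclusion of `Iface.RankinBound`** when the `‖a_p‖ ^ 2` are bounded by `A`. -/
theorem rankin_of_bounded
    (h1 : ModularFormClass.qCoeff g 1 = 1)
    (hT : ∀ p : ℕ, p.Prime → p ∉ S → ∀ n : ℕ,
      ModularFormClass.qCoeff g (p * n) +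
          e p * (if p ∣ n then ModularFormClass.qCoeff g (n / p) else 0) =
        ModularFormClass.qCoeff g p * ModularFormClass.qCoeff g n)
    (A : ℝ) (hA : ∀ p : ℕ, p.Prime → p ∉ S → ‖ModularFormClass.qCoeff g p‖ ^ 2 ≤ A) :
    ∃ C : ℝ, ∀ s : ℝ, 1 < s → s ≤ 2 →
      (∑' n : ℕ, Set.indicator {p : ℕ | p.Prime ∧ p ∉ S}
        (fun p : ℕ => ‖ModularFormClass.qCoeff g p‖ ^ 2 * (p : ℝ) ^ (-s)) n) ≤
        Real.log (1 / (s - 1)) + C := by
  obtain ⟨C, hC⟩ := rankin_log_finset M g S e h1 hT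
  refine ⟨C + 2 * A ^ 2, fun s hs hs2 => ?_⟩
  refine tsum_indicator_le (P := fun p => p.Prime ∧ p ∉ S) _ (fun n => by positivity) _
    fun t ht => ?_
  have h2 := hC s hs hs2 t ht
  have h3 : ∀ p ∈ t, ‖ModularFormClass.qCoeff g p‖ ^ 2 * (p : ℝ) ^ (-s) -
      A ^ 2 * (p : ℝ) ^ (-(2 : ℝ)) ≤
      Real.log (1 + ‖ModularFormClass.qCoeff g p‖ ^ 2 * (p : ℝ) ^ (-s)) := by
    intro p hp
    have hp1 : (1 : ℝ) ≤ p := by exact_mod_cast (ht p hp).1.one_lt.le
    have hy0 : 0 < (p : ℝ) ^ (-s) := Real.rpow_pos_of_pos (by linarith) _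
    have hx0 : 0 ≤ ‖ModularFormClass.qCoeff g p‖ ^ 2 := by positivity
    have h4 := sub_sq_le_log_one_add
      (x := ‖ModularFormClass.qCoeff g p‖ ^ 2 * (p : ℝ) ^ (-s)) (by positivity)
    have h5 : ((p : ℝ) ^ (-s)) ^ 2 ≤ (p : ℝ) ^ (-(2 : ℝ)) := by
      rw [← Real.rpow_natCast, ← Real.rpow_mul (by linarith)]
      apply Real.rpow_le_rpow_of_exponent_le hp1
      push_cast; linarith
    have hA' := hA p (ht p hp).1 (ht p hp).2
    have h6 : (‖ModularFormClass.qCoeff g p‖ ^ 2 * (p : ℝ) ^ (-s)) ^ 2 ≤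
        A ^ 2 * (p : ℝ) ^ (-(2 : ℝ)) := by
      rw [mul_pow]
      exact mul_le_mul (pow_le_pow_left₀ hx0 hA' 2) h5 (by positivity) (by positivity)
    linarith
  have h7 := sum_le_sum h3
  rw [sum_sub_distrib, ← mul_sum] at h7
  have h8 := sum_rpow_neg_two_le t fun p hp => (ht p hp).1.one_lt.le
  have h9 : A ^ 2 * ∑ p ∈ t, (p : ℝ) ^ (-(2 : ℝ)) ≤ 2 * A ^ 2 := by nlinarith [sq_nonneg A]
  linarith

end Rankin

end Fermat.Agent.DS.Rankin.IfaceAdapter
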